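import Fermat.Agent.MR.Spec
import Fermat.Agent.TT.Red2.Red2All

/-!
# PROGRAM MR (S44), the J-SIDE: mid-level interface (`MraJSpec` ⟸ four Props)

Owner: helper16.  Namespace `Fermat.Agent.MR`, prefix `mrj` / `Mrj`.

Setting: `M` prime to `p ≥ 5`, `N = M * p`, `𝔸` a place of `ℚ̄` over `p`, `k` its residue field,
`F = modularFunctionFieldBar (M * p)`, and the LANDED model of program TT:
`V₁ = ttrV1`, `V₂ = ttraV2`, `red₁ = ttraRed1`, `red₂ = ttraRed2 : V_i → F_k(M)`,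
`Γ₀ = mrjGam = ttalKum (ttalOne V₁ V₂) p ≤ J₀(N)`.

* `MrjV`        : the abstract datum the J-side works with: a subgroup `V ≤ J₀(N)` killed by `p`,
  stable under the inertia group, Hecke-eigen (`T_ℓ = a ℓ` for the `good` primes), with `MraShape`
  and `MraP1`.  (NO isomorphism with `E[p]`, NO `G_ℚ`-stability: the second component is reached by
  applying everything to `w V`.)
* `MrjCompSpec₁`, `MrjCompSpec₂` (blocks `mrg mrn mrk mrs mrr mrt mrm mrh`): for `[D] ∈ V`,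
  `p D = div f`, `f` a `V_i`-unit: `ψ := red_i f` has all its orders divisible by `p` and is an
  eigenfunction of every `T̄_ℓ` (`good ℓ`) modulo constants and `p`-th powers, eigenvalue `a ℓ`;
* `MrjKerSpec` (block `mrp`/`mrm`, (K2)/(M5)): both reductions of `f` a constant times a `p`-th
  power ⟹ `[D] ∈ Γ₀`;
* `MrjGamSpec` (landed TT, (β)): `Γ₀` is `I`-stable and has no non-zero `I`-trivial subquotient.

`MR/J/Top.lean` : `MrjCompSpec₁ ∧ MrjCompSpec₂ ∧ MrjKerSpec ∧ MrjGamSpec ⟹ MraJSpec`.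
-/

set_option autoImplicit false

noncomputable section

namespace Fermat.Agent.MR

open Fermat.Agent.FF Fermat.Agent.TT ModularCurve AlgebraicCurve

section Setting

variable (M : ℕ) [NeZero M] {p : ℕ} [Fact p.Prime] [NeZero p]
variable (𝔸 : ValuationSubring FfQb) (hpM : ¬ p ∣ M) (h𝔸 : 𝔸.LiesOverPrime p)

/-- `Γ₀`: the Kummer subgroup of the common one-units of `V₁`, `V₂` (landed, program TT). -/
def mrjGam : AddSubgroup (JZero (M * p)) :=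
  ttalKum (K := FfQb) (ttalOne (ttrV1 M 𝔸 hpM h𝔸) (ttraV2 M 𝔸 hpM h𝔸)) p

/-- the abstract datum of the J-side. -/
structure MrjV (good : Nat.Primes → Prop) (a : Nat.Primes → ℤ)
    (V : AddSubgroup (JZero (M * p))) : Prop where
  tors : ∀ x ∈ V, p • x = 0
  stable : ∀ σ ∈ ffI 𝔸, ∀ x ∈ V, σ • x ∈ V
  eigen : ∀ ℓ : Nat.Primes, good ℓ → ∀ x ∈ V, heckeOperatorBar (M * p) ℓ x = a ℓ • x
  shape : MraShape p 𝔸 V
  p1 : MraP1 p 𝔸 (mraH 𝔸 V)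

/-- the conclusion of the component statements for a function `ψ` of `F_k(M)`. -/
def MrjEigen (good : Nat.Primes → Prop) (a : Nat.Primes → ℤ)
    (ψ : modularFunctionFieldFullC (MraK 𝔸) M) : Prop :=
  (∀ Q : Place (MraK 𝔸) (modularFunctionFieldFullC (MraK 𝔸) M), (p : ℤ) ∣ Q.ord ψ) ∧
  ∀ ℓ : Nat.Primes, good ℓ →
    ∃ (c : MraK 𝔸) (h : modularFunctionFieldFullC (MraK 𝔸) M),
      (haveI : NeZero (ℓ : ℕ) := ⟨ℓ.2.ne_zero⟩; mraTbar (MraK 𝔸) M ℓ ψ) =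
        algebraMap (MraK 𝔸) _ c * ψ ^ (a ℓ) * h ^ p

/-- **(COMP₁)**: the FIRST component. -/
def MrjCompSpec₁ : Prop :=
  5 ≤ p → Squarefree (M * p) →
  ∀ (good : Nat.Primes → Prop) (a : Nat.Primes → ℤ) (V : AddSubgroup (JZero (M * p))),
    (∀ ℓ : Nat.Primes, good ℓ → ¬ (ℓ : ℕ) ∣ M * p) → MrjV M 𝔸 good a V →
    (∃ ℓ₀ : Nat.Primes, good ℓ₀ ∧ ¬ (p : ℤ) ∣ a ℓ₀ - ((ℓ₀ : ℕ) + 1 : ℤ)) →
    ∀ (D : Divisor.degZero (K := FfQb) (F := ↥(modularFunctionFieldBar (M * p))))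
      (f : modularFunctionFieldBar (M * p)) (hf : TtalIsU (ttrV1 M 𝔸 hpM h𝔸) f),
      f ≠ 0 → Pic0.mk D ∈ V →
      (∀ P : Place FfQb ↥(modularFunctionFieldBar (M * p)),
        (p : ℤ) * (D : Divisor FfQb ↥(modularFunctionFieldBar (M * p))) P = P.ord f) →
      MrjEigen (p := p) M 𝔸 good a (ttraRed1 M 𝔸 hpM h𝔸 ⟨f, hf.1⟩)

/-- **(COMP₂)**: the SECOND component (`= (COMP₁)` for `w V`, `w f`, `w = ttrW`). -/
def MrjCompSpec₂ : Prop :=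
  5 ≤ p → Squarefree (M * p) →
  ∀ (good : Nat.Primes → Prop) (a : Nat.Primes → ℤ) (V : AddSubgroup (JZero (M * p))),
    (∀ ℓ : Nat.Primes, good ℓ → ¬ (ℓ : ℕ) ∣ M * p) → MrjV M 𝔸 good a V →
    (∃ ℓ₀ : Nat.Primes, good ℓ₀ ∧ ¬ (p : ℤ) ∣ a ℓ₀ - ((ℓ₀ : ℕ) + 1 : ℤ)) →
    ∀ (D : Divisor.degZero (K := FfQb) (F := ↥(modularFunctionFieldBar (M * p))))
      (f : modularFunctionFieldBar (M * p)) (hf : TtalIsU (ttraV2 M 𝔸 hpM h𝔸) f),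
      f ≠ 0 → Pic0.mk D ∈ V →
      (∀ P : Place FfQb ↥(modularFunctionFieldBar (M * p)),
        (p : ℤ) * (D : Divisor FfQb ↥(modularFunctionFieldBar (M * p))) P = P.ord f) →
      MrjEigen (p := p) M 𝔸 good a (ttraRed2 M 𝔸 hpM h𝔸 ⟨f, hf.1⟩)

/-- **(KER)** `ker sp ⊆ Γ₀` (= helper26's `MrmKerSpec`, helper1's `mrp_ker_aux`). -/
def MrjKerSpec : Prop :=
  ∀ (D : Divisor.degZero (K := FfQb) (F := ↥(modularFunctionFieldBar (M * p))))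
    (f₁ f₂ : modularFunctionFieldBar (M * p)) (c : FfQb)
    (h₁ : TtalIsU (ttrV1 M 𝔸 hpM h𝔸) f₁) (h₂ : TtalIsU (ttraV2 M 𝔸 hpM h𝔸) f₂),
    f₁ ≠ 0 → c ≠ 0 → f₂ = algebraMap FfQb _ c * f₁ →
    (∀ P : Place FfQb ↥(modularFunctionFieldBar (M * p)),
      (p : ℤ) * (D : Divisor FfQb ↥(modularFunctionFieldBar (M * p))) P = P.ord f₁) →
    (∃ (a : MraK 𝔸) (h : modularFunctionFieldFullC (MraK 𝔸) M),
      ttraRed1 M 𝔸 hpM h𝔸 ⟨f₁, h₁.1⟩ = algebraMap (MraK 𝔸) _ a * h ^ p) →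
    (∃ (a : MraK 𝔸) (h : modularFunctionFieldFullC (MraK 𝔸) M),
      ttraRed2 M 𝔸 hpM h𝔸 ⟨f₂, h₂.1⟩ = algebraMap (MraK 𝔸) _ a * h ^ p) →
    Pic0.mk D ∈ mrjGam M 𝔸 hpM h𝔸

/-- **(GAM)** the landed facts on `Γ₀` (program TT, (β)): `I`-stable, no non-zero `I`-trivial
subquotient. -/
def MrjGamSpec : Prop :=
  (∀ σ ∈ ffI 𝔸, ∀ x ∈ mrjGam M 𝔸 hpM h𝔸, σ • x ∈ mrjGam M 𝔸 hpM h𝔸) ∧
  TtNoTriv (fun (σ : ↥(ffI 𝔸)) (x : JZero (M * p)) => (σ : FfGal) • x) (mrjGam M 𝔸 hpM h𝔸)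

/-- **(NORM)** every non-zero function has a `V_i`-normalisation (landed `ttra_sc₁`, `ttra_sc₂`),
and the reduction of a unit is non-zero (landed `ttra_ker₁`, `ttra_ker₂`). -/
def MrjNormSpec : Prop :=
  (∀ f : modularFunctionFieldBar (M * p), f ≠ 0 →
    ∃ c : FfQb, c ≠ 0 ∧ TtalIsU (ttrV1 M 𝔸 hpM h𝔸) (algebraMap FfQb _ c * f)) ∧
  (∀ f : modularFunctionFieldBar (M * p), f ≠ 0 →
    ∃ c : FfQb, c ≠ 0 ∧ TtalIsU (ttraV2 M 𝔸 hpM h𝔸) (algebraMap FfQb _ c * f)) ∧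
  (∀ (f : modularFunctionFieldBar (M * p)) (hf : TtalIsU (ttrV1 M 𝔸 hpM h𝔸) f), f ≠ 0 →
    ttraRed1 M 𝔸 hpM h𝔸 ⟨f, hf.1⟩ ≠ 0) ∧
  (∀ (f : modularFunctionFieldBar (M * p)) (hf : TtalIsU (ttraV2 M 𝔸 hpM h𝔸) f), f ≠ 0 →
    ttraRed2 M 𝔸 hpM h𝔸 ⟨f, hf.1⟩ ≠ 0)

end Setting

end Fermat.Agent.MR
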