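import Mathlib
import Fermat.Agent.TT.Red2.Red2J

/-!
# PROGRAM MR (S44), J-side: THE CONCRETE TWO-VALUATION MODEL of `X₀(M p)` (prefix `mrjm`)

Owner: helper14 (taken over from helper16, R68(4)).  Namespace `Fermat.Agent.MR`.

Main exports only the existential leaf `TtgRed2Spec M p 𝔸` (`ttra_red2_j_closed`), in which the two
valuation rings and the two reductions are existentially quantified.  The J-side of program MR needs
the model AT THE CONCRETE TERMS `ttrV1`, `ttraV2`, `ttraRed1`, `ttraRed2`, `ffigRho` (only the class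
map, the nodes and the exceptional sets stay existential): `MrjmModel M 𝔸 hpM h𝔸`.

The chain `ttra_red2` → `ttra_red2_of_atlas_mixed` → `ttra_red2_of_atlas_S` → `ttra_red2_of_atlas_Sm`
→ `ttra_red2_j` → `ttra_red2_j_closed` of `TT/Red2/{Red2Inst,Red2Atlas,Red2AtlasS,Red2J}.lean` is
repeated here VERBATIM (same hypotheses, same proofs, fresh names `mrjm_*`) with the conclusion kept
concrete; every ingredient is imported from main.

* `mrjm_red2_j_closed (h5 : 5 ≤ p) : MrjmModel M 𝔸 hpM h𝔸` : hypothesis-free.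
-/

set_option autoImplicit false
set_option linter.unusedSectionVars false
set_option linter.unusedVariables false
set_option linter.style.haveILetI false
set_option synthInstance.maxHeartbeats 400000

noncomputable section

namespace Fermat.Agent.MR

open AlgebraicCurve IsLocalRing ModularCurve Fermat.Agent.G Fermat.Agent.FF Fermat.Agent.S18
  Fermat.Agent.SS Fermat.Agent.V.RR Fermat.Agent.S24 Fermat.Agent.TT

local notation "Qb" => AlgebraicClosure ℚ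

variable (M : ℕ) [NeZero M] {p : ℕ} [Fact p.Prime] [NeZero p]
variable (A : ValuationSubring Qb) (hpM : ¬ p ∣ M) (hA : A.LiesOverPrime p)
variable {τ τ' : LaurentSeries ℤ}

/-- **THE CONCRETE TWO-VALUATION MODEL** : `TtgModel` at `ttrV1`, `ttraV2`, `ttraRed1`, `ttraRed2`,
`ffigRho (M * p) 𝔸`, for SOME class map, nodes and exceptional sets. -/
def MrjmModel : Prop :=
  ∃ (cls : Place Qb ↥(modularFunctionFieldBar (M * p)) →
      Option (Place (ResidueField A) ↥(modularFunctionFieldFullC (ResidueField A) M) ⊕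
        Place (ResidueField A) ↥(modularFunctionFieldFullC (ResidueField A) M)))
    (S : Type) (_ : Fintype S)
    (ν₁ ν₂ : S → Place (ResidueField A) ↥(modularFunctionFieldFullC (ResidueField A) M))
    (T₁ T₂ : Finset (Place (ResidueField A) ↥(modularFunctionFieldFullC (ResidueField A) M))),
    TtgModel A (ttrV1 M A hpM hA) (ttraV2 M A hpM hA) (ttraRed1 M A hpM hA)
      (ttraRed2 M A hpM hA) (ffigRho (M * p) A) cls ν₁ ν₂ T₁ T₂
      (genusFF FfQb ↥(modularFunctionFieldBar (M * p)))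
      (genusFF FfQb ↥(modularFunctionFieldBar M)) (genusFF FfQb ↥(modularFunctionFieldBar M))

/-- the existential packaging, concrete form. -/
theorem mrjm_of_model
    (cls : Place Qb ↥(modularFunctionFieldBar (M * p)) →
      Option (Place (ResidueField A) ↥(modularFunctionFieldFullC (ResidueField A) M) ⊕
        Place (ResidueField A) ↥(modularFunctionFieldFullC (ResidueField A) M)))
    {S : Type} [Fintype S]
    (ν₁ ν₂ : S → Place (ResidueField A) ↥(modularFunctionFieldFullC (ResidueField A) M))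
    (T₁ T₂ : Finset (Place (ResidueField A) ↥(modularFunctionFieldFullC (ResidueField A) M)))
    (hmod : TtgModel A (ttrV1 M A hpM hA) (ttraV2 M A hpM hA) (ttraRed1 M A hpM hA)
      (ttraRed2 M A hpM hA) (ffigRho (M * p) A) cls ν₁ ν₂ T₁ T₂
      (genusFF FfQb ↥(modularFunctionFieldBar (M * p)))
      (genusFF FfQb ↥(modularFunctionFieldBar M)) (genusFF FfQb ↥(modularFunctionFieldBar M))) :
    MrjmModel M A hpM hA :=
  ⟨cls, S, inferInstance, ν₁, ν₂, T₁, T₂, hmod⟩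

/-- the concrete model implies main's existential leaf. -/
theorem mrjm_red2Spec (h : MrjmModel M A hpM hA) : TtgRed2Spec M p A := by
  obtain ⟨cls, S, hS, ν₁, ν₂, T₁, T₂, hmod⟩ := h
  exact ⟨ttrV1 M A hpM hA, ttraV2 M A hpM hA, ttraRed1 M A hpM hA, ttraRed2 M A hpM hA, cls, S,
    hS, ν₁, ν₂, T₁, T₂, hmod⟩

/-- **LEAF (RED2) at level `M p`** from the ELEVEN open geometric inputs (`nodes` is derived from
`genus_le`, helper27). -/
theorem mrjm_red2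
    (cls : Place Qb ↥(modularFunctionFieldBar (M * p)) → Option (Place (ResidueField A) ↥(modularFunctionFieldFullC (ResidueField A) M) ⊕ Place (ResidueField A) ↥(modularFunctionFieldFullC (ResidueField A) M)))
    {S : Type} [Fintype S] (ν₁ ν₂ : S → Place (ResidueField A) ↥(modularFunctionFieldFullC (ResidueField A) M))
    (T₁ T₂ : Finset (Place (ResidueField A) ↥(modularFunctionFieldFullC (ResidueField A) M)))
    -- PLACES (helper6 (B3))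
    (lift₁ : ∀ Q : Place (ResidueField A) ↥(modularFunctionFieldFullC (ResidueField A) M), Q ∉ T₁ →
      ∃ P : Place Qb ↥(modularFunctionFieldBar (M * p)), cls P = some (Sum.inl Q) ∧ ∀ σ : ↥(ffI A), ffigRho (M * p) A σ • P = P)
    (lift₂ : ∀ Q : Place (ResidueField A) ↥(modularFunctionFieldFullC (ResidueField A) M), Q ∉ T₂ →
      ∃ P : Place Qb ↥(modularFunctionFieldBar (M * p)), cls P = some (Sum.inr Q) ∧ ∀ σ : ↥(ffI A), ffigRho (M * p) A σ • P = P)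
    -- NODE (helper19)
    (ν₁_inj : Function.Injective ν₁) (ν₂_inj : Function.Injective ν₂)
    (ν₁_mem : ∀ i, ν₁ i ∈ T₁) (ν₂_mem : ∀ i, ν₂ i ∈ T₂)
    -- COUNT (helper5)
    (genus_le : (genusFF FfQb ↥(modularFunctionFieldBar (M * p)) : ℤ) ≤
      (genusFF FfQb ↥(modularFunctionFieldBar M) : ℤ) +
        (genusFF FfQb ↥(modularFunctionFieldBar M) : ℤ) + (Fintype.card S : ℤ) - 1)
    -- INTO (helper23)
    (into : ∀ D : Divisor Qb ↥(modularFunctionFieldBar (M * p)), (∀ P, D P ≠ 0 → cls P ≠ none) →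
      (∀ P, -1 ≤ D P) →
      (∀ P P' : Place Qb ↥(modularFunctionFieldBar (M * p)), cls P = cls P' → D P < 0 → D P' < 0 →
        P = P') →
      ∀ (x : ↥(modularFunctionFieldBar (M * p))) (hx₁ : x ∈ ttrV1 M A hpM hA) (hx₂ : x ∈ ttraV2 M A hpM hA),
        x ∈ riemannRochSpace D →
        (ttraRed1 M A hpM hA ⟨x, hx₁⟩, ttraRed2 M A hpM hA ⟨x, hx₂⟩) ∈
          ttnkL ν₁ ν₂ (ttgPush₁ cls D) (ttgPush₂ cls D))
    -- VALUES (helper6 (B2) + helper23 (LOC))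
    (val₁ : ∀ (P : Place Qb ↥(modularFunctionFieldBar (M * p))) (Q : Place (ResidueField A) ↥(modularFunctionFieldFullC (ResidueField A) M)), cls P = some (Sum.inl Q) →
      ∀ (x : ↥(modularFunctionFieldBar (M * p))) (hx₁ : x ∈ ttrV1 M A hpM hA) (hx₂ : x ∈ ttraV2 M A hpM hA),
        (∀ P' : Place Qb ↥(modularFunctionFieldBar (M * p)), cls P' = some (Sum.inl Q) → 0 ≤ P'.ord x) →
        ∃ α : A, GrdVal P x (α : Qb) ∧ GrdVal Q (ttraRed1 M A hpM hA ⟨x, hx₁⟩) (residue A α))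
    (val₂ : ∀ (P : Place Qb ↥(modularFunctionFieldBar (M * p))) (Q : Place (ResidueField A) ↥(modularFunctionFieldFullC (ResidueField A) M)), cls P = some (Sum.inr Q) →
      ∀ (x : ↥(modularFunctionFieldBar (M * p))) (hx₁ : x ∈ ttrV1 M A hpM hA) (hx₂ : x ∈ ttraV2 M A hpM hA),
        (∀ P' : Place Qb ↥(modularFunctionFieldBar (M * p)), cls P' = some (Sum.inr Q) → 0 ≤ P'.ord x) →
        ∃ α : A, GrdVal P x (α : Qb) ∧ GrdVal Q (ttraRed2 M A hpM hA ⟨x, hx₂⟩) (residue A α))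
    -- BRIDGE (V)+(D) (helper15)
    (const : ∀ (x : ↥(modularFunctionFieldBar (M * p))) (hx₁ : x ∈ ttrV1 M A hpM hA) (hx₂ : x ∈ ttraV2 M A hpM hA)
      (c : ResidueField A), c ≠ 0 → x ≠ 0 →
      (∀ v : Place Qb ↥(modularFunctionFieldBar (M * p)), cls v = none → 0 ≤ v.ord x) →
      ttraRed1 M A hpM hA ⟨x, hx₁⟩ = algebraMap (ResidueField A) ↥(modularFunctionFieldFullC (ResidueField A) M) c →
      ttraRed2 M A hpM hA ⟨x, hx₂⟩ = algebraMap (ResidueField A) ↥(modularFunctionFieldFullC (ResidueField A) M) c →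
      ∀ Dx : Divisor Qb ↥(modularFunctionFieldBar (M * p)), (∀ v : Place Qb ↥(modularFunctionFieldBar (M * p)), Dx v = v.ord x) →
        (∀ v : Place Qb ↥(modularFunctionFieldBar (M * p)), cls v = none → Dx v = 0) ∧ Finsupp.mapDomain cls Dx = 0) :
    MrjmModel M A hpM hA :=
  mrjm_of_model M A hpM hA cls ν₁ ν₂ T₁ T₂
    (ttra_model_inst M A hpM hA cls ν₁ ν₂ T₁ T₂ _ _ _ lift₁ lift₂ ν₁_inj ν₂_inj ν₁_mem ν₂_mem
      (ttrq_nodes_of_genus_le M (Fact.out : p.Prime) hpM S genus_le) genus_le into val₁ val₂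
      const)

/-- **LEAF (RED2) for an explicit atlas, MIXED FORM** : `hcross` replaced by `hmix12`, `hmix21`
(helper1 `ttrgl_into_inst_mixed`). -/
theorem mrjm_red2_of_atlas_mixed (hat : GrdAtlas M A τ τ')
    (r : Place Qb (modularFunctionFieldBar M) →
      Place (ResidueField A) (modularFunctionFieldFullC (ResidueField A) M))
    (hr : GrdIsRed M A hat.c.mem hat.c'.mem r)
    (v₁ v₂ : modularFunctionFieldBar (M * p))
    -- CHARTS (helper12 ChartAll `ttr_chart_j₁/₂`; p = 3: helper17 `ttrc_chart_h₁/₂`)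
    (H₁ : TtrpChart M p A (heckeAlphaBar Qb M p) hat.c.mem (grdO (M * p) A) (ttrRed1 M A hA) v₁)
    (H₂ : TtrpChart M p A (heckeBetaBar Qb M p) hat.c.mem (ttrV2 M A hpM)
      (ttrRed2 M A hpM hA) v₂)
    (hv₂ : v₂ ∈ grdB (M * p) A (heckeAlphaBar Qb M p (grdQ M hat.c.mem)))
    (hbe : heckeBetaBar Qb M p (grdQ M hat.c.mem) ∈
      grdB (M * p) A (heckeAlphaBar Qb M p (grdQ M hat.c.mem)))
    -- (B3) in the ∀-good-P form (helper15 `ttrli_hfib`; p = 3: helper13 GoodFibH)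
    (hfib₁ : ∀ P : Place Qb (modularFunctionFieldBar (M * p)),
      TtrpGoodC M p A (heckeAlphaBar Qb M p (grdQ M hat.c.mem)) v₁ P →
      P.ramificationIndexAlong (heckeAlphaBar Qb M p) = 1 ∧
      ∀ P' : Place Qb (modularFunctionFieldBar (M * p)),
        TtrpGoodC M p A (heckeAlphaBar Qb M p (grdQ M hat.c.mem)) v₁ P' →
        ttrpRes M p (heckeAlphaBar Qb M p) (gff_alpha_integral M p) P' =
          ttrpRes M p (heckeAlphaBar Qb M p) (gff_alpha_integral M p) P → P' = P)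
    (hfib₂ : ∀ P : Place Qb (modularFunctionFieldBar (M * p)),
      TtrpGoodC M p A (heckeBetaBar Qb M p (grdQ M hat.c.mem)) v₂ P →
      P.ramificationIndexAlong (heckeBetaBar Qb M p) = 1 ∧
      ∀ P' : Place Qb (modularFunctionFieldBar (M * p)),
        TtrpGoodC M p A (heckeBetaBar Qb M p (grdQ M hat.c.mem)) v₂ P' →
        ttrpRes M p (heckeBetaBar Qb M p) (gff_beta_integral M p) P' =
          ttrpRes M p (heckeBetaBar Qb M p) (gff_beta_integral M p) P → P' = P)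
    -- THE CLASS MAP (helper6)
    (cls : Place Qb ↥(modularFunctionFieldBar (M * p)) →
      Option (Place (ResidueField A) ↥(modularFunctionFieldFullC (ResidueField A) M) ⊕
        Place (ResidueField A) ↥(modularFunctionFieldFullC (ResidueField A) M)))
    (hcls : cls = ttrpCls M p A r (heckeAlphaBar Qb M p (grdQ M hat.c.mem)) v₁
      (heckeBetaBar Qb M p (grdQ M hat.c.mem)) v₂)
    -- NODES (helper19/helper27/helper5) and exceptional sets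
    {S : Type} [Fintype S]
    (ν₁ ν₂ : S → Place (ResidueField A) ↥(modularFunctionFieldFullC (ResidueField A) M))
    (T₁ T₂ : Finset (Place (ResidueField A) ↥(modularFunctionFieldFullC (ResidueField A) M)))
    (ν₁_inj : Function.Injective ν₁) (ν₂_inj : Function.Injective ν₂)
    (ν₁_mem : ∀ i, ν₁ i ∈ T₁) (ν₂_mem : ∀ i, ν₂ i ∈ T₂)
    -- LIFTS (helper6 `ttrp_cls_lift₁/₂` + helper10 `ttrla_fixed`)
    (lift₁ : ∀ Q : Place (ResidueField A) ↥(modularFunctionFieldFullC (ResidueField A) M),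
      Q ∉ T₁ → ∃ P : Place Qb ↥(modularFunctionFieldBar (M * p)),
        cls P = some (Sum.inl Q) ∧ ∀ σ : ↥(ffI A), ffigRho (M * p) A σ • P = P)
    (lift₂ : ∀ Q : Place (ResidueField A) ↥(modularFunctionFieldFullC (ResidueField A) M),
      Q ∉ T₂ → ∃ P : Place Qb ↥(modularFunctionFieldBar (M * p)),
        cls P = some (Sum.inr Q) ∧ ∀ σ : ↥(ffI A), ffigRho (M * p) A σ • P = P)
    -- COUNT (helper5 `ttrk_genus_le_T` / helper28 `ttro_genus_le`)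
    (genus_le : (genusFF FfQb ↥(modularFunctionFieldBar (M * p)) : ℤ) ≤
      (genusFF FfQb ↥(modularFunctionFieldBar M) : ℤ) +
        (genusFF FfQb ↥(modularFunctionFieldBar M) : ℤ) + (Fintype.card S : ℤ) - 1)
    -- INTO: node inputs (helper9 NodeGood, helper29 Cross, helper3 IntoNode instance)
    (hrν₁ : ∀ (P : Place Qb (modularFunctionFieldBar (M * p))) (i : S),
      TtrpGoodC M p A (heckeAlphaBar Qb M p (grdQ M hat.c.mem)) v₁ P →
        ttrpR M p A (heckeAlphaBar Qb M p) (gff_alpha_integral M p) r P ≠ ν₁ i)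
    (hrν₂ : ∀ (P : Place Qb (modularFunctionFieldBar (M * p))) (i : S),
      TtrpGoodC M p A (heckeBetaBar Qb M p (grdQ M hat.c.mem)) v₂ P →
        ttrpR M p A (heckeBetaBar Qb M p) (gff_beta_integral M p) r P ≠ ν₂ i)
    (hmix12 : ∀ (Q : Place (ResidueField A) ↥(modularFunctionFieldFullC (ResidueField A) M))
      (v : Place Qb (modularFunctionFieldBar (M * p))),
      ttrglCen₁ M A hpM hA hat Q v →
        ¬ TtrpGoodC M p A (heckeBetaBar Qb M p (grdQ M hat.c.mem)) v₂ v)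
    (hmix21 : ∀ (Q : Place (ResidueField A) ↥(modularFunctionFieldFullC (ResidueField A) M))
      (v : Place Qb (modularFunctionFieldBar (M * p))),
      ttrglCen₂ M A hpM hA hat Q v →
        ¬ TtrpGoodC M p A (heckeAlphaBar Qb M p (grdQ M hat.c.mem)) v₁ v)
    (cenN : S → Place Qb (modularFunctionFieldBar (M * p)) → Prop)
    (hcenN : ∀ i v, cenN i v →
      ¬ TtrpGoodC M p A (heckeAlphaBar Qb M p (grdQ M hat.c.mem)) v₁ v ∧
        ¬ TtrpGoodC M p A (heckeBetaBar Qb M p (grdQ M hat.c.mem)) v₂ v)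
    (hN : ∀ i, ∃ (B : Subring (modularFunctionFieldBar (M * p)))
        (hBO : B ≤ ttrglO2 M A hpM hA),
      (∀ x ∈ ttrglO2 M A hpM hA, (∀ v, cenN i v → x ∈ v.toValuationSubring) →
        ∃ s : B, ¬ GrdVal (ν₁ i) (ttrglRed₁ M A hpM hA ⟨s, hBO s.2⟩) 0 ∧
          (s : modularFunctionFieldBar (M * p)) * x ∈ B) ∧
      ∀ b : B, ∃ c : ResidueField A,
        GrdVal (ν₁ i) (ttrglRed₁ M A hpM hA ⟨b, hBO b.2⟩) c ∧
          GrdVal (ν₂ i) (ttrglRed₂ M A hpM hA ⟨b, hBO b.2⟩) c)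
    -- VALUES (helper23 IntoVal `ttriv_val_1/2`)
    (val₁ : ∀ (P : Place Qb ↥(modularFunctionFieldBar (M * p)))
      (Q : Place (ResidueField A) ↥(modularFunctionFieldFullC (ResidueField A) M)),
      cls P = some (Sum.inl Q) →
      ∀ (x : ↥(modularFunctionFieldBar (M * p))) (hx₁ : x ∈ ttrV1 M A hpM hA)
        (hx₂ : x ∈ ttraV2 M A hpM hA),
        (∀ P' : Place Qb ↥(modularFunctionFieldBar (M * p)),
          cls P' = some (Sum.inl Q) → 0 ≤ P'.ord x) →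
        ∃ α : A, GrdVal P x (α : Qb) ∧ GrdVal Q (ttraRed1 M A hpM hA ⟨x, hx₁⟩) (residue A α))
    (val₂ : ∀ (P : Place Qb ↥(modularFunctionFieldBar (M * p)))
      (Q : Place (ResidueField A) ↥(modularFunctionFieldFullC (ResidueField A) M)),
      cls P = some (Sum.inr Q) →
      ∀ (x : ↥(modularFunctionFieldBar (M * p))) (hx₁ : x ∈ ttrV1 M A hpM hA)
        (hx₂ : x ∈ ttraV2 M A hpM hA),
        (∀ P' : Place Qb ↥(modularFunctionFieldBar (M * p)),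
          cls P' = some (Sum.inr Q) → 0 ≤ P'.ord x) →
        ∃ α : A, GrdVal P x (α : Qb) ∧ GrdVal Q (ttraRed2 M A hpM hA ⟨x, hx₂⟩) (residue A α)) :
    MrjmModel M A hpM hA := by
  subst hcls
  exact mrjm_red2 M A hpM hA _ ν₁ ν₂ T₁ T₂ lift₁ lift₂ ν₁_inj ν₂_inj ν₁_mem ν₂_mem genus_le
    (ttrgl_into_inst_mixed M A hpM hA hat r hr v₁ v₂ H₁ H₂ ν₁ ν₂ hrν₁ hrν₂ hmix12 hmix21 cenN hcenN
      hN)
    val₁ val₂
    (ttrli_const_cls M A hpM hA hat r hr v₁ v₂ H₁ H₂ hv₂ hbe hfib₁ hfib₂ val₁ val₂)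

/-- **LEAF (RED2) for an explicit atlas, on the canonical set of nodes.** -/
theorem mrjm_red2_of_atlas_S (hat : GrdAtlas M A τ τ')
    (r : Place Qb (modularFunctionFieldBar M) →
      Place (ResidueField A) (modularFunctionFieldFullC (ResidueField A) M))
    (hr : GrdIsRed M A hat.c.mem hat.c'.mem r)
    (v₁ v₂ : modularFunctionFieldBar (M * p))
    -- CHARTS
    (H₁ : TtrpChart M p A (heckeAlphaBar Qb M p) hat.c.mem (grdO (M * p) A) (ttrRed1 M A hA) v₁)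
    (H₂ : TtrpChart M p A (heckeBetaBar Qb M p) hat.c.mem (ttrV2 M A hpM)
      (ttrRed2 M A hpM hA) v₂)
    (hv₂ : v₂ ∈ grdB (M * p) A (heckeAlphaBar Qb M p (grdQ M hat.c.mem)))
    (hbe : heckeBetaBar Qb M p (grdQ M hat.c.mem) ∈
      grdB (M * p) A (heckeAlphaBar Qb M p (grdQ M hat.c.mem)))
    -- the two equations on the other component
    (hv₁V2 : v₁ ∈ ttrV2 M A hpM) (hred₂ : ttrRed2 M A hpM hA ⟨v₁, hv₁V2⟩ = 0)
    (hv₂O : v₂ ∈ grdO (M * p) A) (hred₁ : ttrRed1 M A hA ⟨v₂, hv₂O⟩ = 0)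
    (hne₁ : ttrRed1 M A hA ⟨v₁, H₁.int_mem H₁.v_int⟩ ≠ 0)
    -- (B3)
    (hfib₁ : ∀ P : Place Qb (modularFunctionFieldBar (M * p)),
      TtrpGoodC M p A (heckeAlphaBar Qb M p (grdQ M hat.c.mem)) v₁ P →
      P.ramificationIndexAlong (heckeAlphaBar Qb M p) = 1 ∧
      ∀ P' : Place Qb (modularFunctionFieldBar (M * p)),
        TtrpGoodC M p A (heckeAlphaBar Qb M p (grdQ M hat.c.mem)) v₁ P' →
        ttrpRes M p (heckeAlphaBar Qb M p) (gff_alpha_integral M p) P' =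
          ttrpRes M p (heckeAlphaBar Qb M p) (gff_alpha_integral M p) P → P' = P)
    (hfib₂ : ∀ P : Place Qb (modularFunctionFieldBar (M * p)),
      TtrpGoodC M p A (heckeBetaBar Qb M p (grdQ M hat.c.mem)) v₂ P →
      P.ramificationIndexAlong (heckeBetaBar Qb M p) = 1 ∧
      ∀ P' : Place Qb (modularFunctionFieldBar (M * p)),
        TtrpGoodC M p A (heckeBetaBar Qb M p (grdQ M hat.c.mem)) v₂ P' →
        ttrpRes M p (heckeBetaBar Qb M p) (gff_beta_integral M p) P' =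
          ttrpRes M p (heckeBetaBar Qb M p) (gff_beta_integral M p) P → P' = P)
    -- EXCEPTIONAL SETS AND LIFTS
    (T₁ T₂ : Finset (Place (ResidueField A) ↥(modularFunctionFieldFullC (ResidueField A) M)))
    (hT₁ : ∀ Q : Place (ResidueField A) ↥(modularFunctionFieldFullC (ResidueField A) M),
      GrdVal Q (ttrRed1 M A hA ⟨v₁, H₁.int_mem H₁.v_int⟩) 0 → Q ∈ T₁)
    (hT₂ : ∀ Q : Place (ResidueField A) ↥(modularFunctionFieldFullC (ResidueField A) M),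
      GrdVal Q (ttrRed2 M A hpM hA ⟨v₂, H₂.int_mem H₂.v_int⟩) 0 → Q ∈ T₂)
    (lift₁ : ∀ Q : Place (ResidueField A) ↥(modularFunctionFieldFullC (ResidueField A) M),
      Q ∉ T₁ → ∃ P : Place Qb ↥(modularFunctionFieldBar (M * p)),
        ttrpCls M p A r (heckeAlphaBar Qb M p (grdQ M hat.c.mem)) v₁
          (heckeBetaBar Qb M p (grdQ M hat.c.mem)) v₂ P = some (Sum.inl Q) ∧
        ∀ σ : ↥(ffI A), ffigRho (M * p) A σ • P = P)
    (lift₂ : ∀ Q : Place (ResidueField A) ↥(modularFunctionFieldFullC (ResidueField A) M),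
      Q ∉ T₂ → ∃ P : Place Qb ↥(modularFunctionFieldBar (M * p)),
        ttrpCls M p A r (heckeAlphaBar Qb M p (grdQ M hat.c.mem)) v₁
          (heckeBetaBar Qb M p (grdQ M hat.c.mem)) v₂ P = some (Sum.inr Q) ∧
        ∀ σ : ↥(ffI A), ffigRho (M * p) A σ • P = P)
    -- COUNT (helper5 CountS / CountT; helper17 ChartOnto)
    (hR₁ : ∀ y, y ∈ intRing (ResidueField A) (grdK M A hat.c.mem) ↔
      ∃ b, ttrkR₁ (ttrkT M p A hpM hA hat) b = y)
    (hR₂ : ∀ y, y ∈ intRing (ResidueField A) (grdK M A hat.c.mem) ↔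
      ∃ b, ttrkR₂ (ttrkT M p A hpM hA hat) b = y)
    (hR₁' : ∀ y, y ∈ intRing (ResidueField A) (grdK M A hat.c'.mem) ↔
      ∃ b, ttrkR₁' (ttrkT M p A hpM hA hat) b = y)
    (hR₂' : ∀ y, y ∈ intRing (ResidueField A) (grdK M A hat.c'.mem) ↔
      ∃ b, ttrkR₂' (ttrkT M p A hpM hA hat) b = y)
    (hT : ∀ 𝔫 : Ideal ↥(ttrkT M p A hpM hA hat).B, 𝔫.IsMaximal →
      RingHom.ker (ttrkR₁ (ttrkT M p A hpM hA hat)) ≤ 𝔫 →
      RingHom.ker (ttrkR₂ (ttrkT M p A hpM hA hat)) ≤ 𝔫 → ∀ x ∈ 𝔫, ∃ s, s ∉ 𝔫 ∧ ∃ y₁ y₂,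
        ttrkR₁ (ttrkT M p A hpM hA hat) y₁ = 0 ∧ ttrkR₂ (ttrkT M p A hpM hA hat) y₂ = 0 ∧
          s * x = y₁ + y₂)
    (hT' : ∀ 𝔫 : Ideal ↥(ttrkT M p A hpM hA hat).B', 𝔫.IsMaximal →
      RingHom.ker (ttrkR₁' (ttrkT M p A hpM hA hat)) ≤ 𝔫 →
      RingHom.ker (ttrkR₂' (ttrkT M p A hpM hA hat)) ≤ 𝔫 → ∀ x ∈ 𝔫, ∃ s, s ∉ 𝔫 ∧ ∃ y₁ y₂,
        ttrkR₁' (ttrkT M p A hpM hA hat) y₁ = 0 ∧ ttrkR₂' (ttrkT M p A hpM hA hat) y₂ = 0 ∧
          s * x = y₁ + y₂)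
    (hcusp : ∀ 𝔫 : Ideal ↥(ttrkT M p A hpM hA hat).B', 𝔫.IsMaximal →
      RingHom.ker (ttrkR₁' (ttrkT M p A hpM hA hat)) ≤ 𝔫 →
      RingHom.ker (ttrkR₂' (ttrkT M p A hpM hA hat)) ≤ 𝔫 →
      (⟨(ttrkT M p A hpM hA hat).u', (ttrkT M p A hpM hA hat).hu'⟩ :
        ↥(ttrkT M p A hpM hA hat).B') ∉ 𝔫)
    -- INTO: the mixed facts (helper29 via helper1 `ttrgl_hmix_j_of_charts`)
    (hmix12 : ∀ (Q : Place (ResidueField A) ↥(modularFunctionFieldFullC (ResidueField A) M))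
      (v : Place Qb (modularFunctionFieldBar (M * p))),
      ttrglCen₁ M A hpM hA hat Q v →
        ¬ TtrpGoodC M p A (heckeBetaBar Qb M p (grdQ M hat.c.mem)) v₂ v)
    (hmix21 : ∀ (Q : Place (ResidueField A) ↥(modularFunctionFieldFullC (ResidueField A) M))
      (v : Place Qb (modularFunctionFieldBar (M * p))),
      ttrglCen₂ M A hpM hA hat Q v →
        ¬ TtrpGoodC M p A (heckeAlphaBar Qb M p (grdQ M hat.c.mem)) v₁ v) :
    MrjmModel M A hpM hA := by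
  -- the canonical node set is finite
  have hy₁ : ttrkR₁ (ttrkT M p A hpM hA hat)
      (⟨v₁, H₁.v_int⟩ : ↥(ttrkT M p A hpM hA hat).B) ≠ 0 := hne₁
  have hy₂ : ttrkR₂ (ttrkT M p A hpM hA hat)
      (⟨v₁, H₁.v_int⟩ : ↥(ttrkT M p A hpM hA hat).B) = 0 := hred₂
  haveI : Finite (ttrkS M p A hpM hA hat) :=
    ttrkS_finite M p A hpM hA hat hR₁ hR₂ ⟨v₁, H₁.v_int⟩ hy₁ hy₂
  haveI : Fintype (ttrkS M p A hpM hA hat) := Fintype.ofFinite _
  -- glueing at `v₁`, `v₂`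
  have hglue₁ : ∀ i : ttrkS M p A hpM hA hat, ∃ c : ResidueField A,
      GrdVal (ttrkSν₁ M p A hpM hA hat i) (ttrRed1 M A hA ⟨v₁, H₁.int_mem H₁.v_int⟩) c ∧
        GrdVal (ttrkSν₂ M p A hpM hA hat i) (ttrRed2 M A hpM hA ⟨v₁, hv₁V2⟩) c :=
    fun i => ttrkS_val M p A hpM hA hat i ⟨v₁, H₁.v_int⟩
  have hglue₂ : ∀ i : ttrkS M p A hpM hA hat, ∃ c : ResidueField A,
      GrdVal (ttrkSν₁ M p A hpM hA hat i) (ttrRed1 M A hA ⟨v₂, hv₂O⟩) c ∧
        GrdVal (ttrkSν₂ M p A hpM hA hat i)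
          (ttrRed2 M A hpM hA ⟨v₂, H₂.int_mem H₂.v_int⟩) c :=
    fun i => ttrkS_val M p A hpM hA hat i ⟨v₂, hv₂⟩
  have hdisj : ∀ P : Place Qb (modularFunctionFieldBar (M * p)),
      TtrpGoodC M p A (heckeAlphaBar Qb M p (grdQ M hat.c.mem)) v₁ P →
        TtrpGoodC M p A (heckeBetaBar Qb M p (grdQ M hat.c.mem)) v₂ P → False :=
    fun P h1 h2 => ttrp_disj H₁ _ v₂ hv₂ hred₁ P h1 h2
  have hpair : ∀ i : ttrkS M p A hpM hA hat,
      ∀ b : ↥(grdB (M * p) A (heckeAlphaBar Qb M p (grdQ M hat.c.mem))),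
      ∃ c : ResidueField A,
        GrdVal (ttrkSν₁ M p A hpM hA hat i)
          (ttalRedO₁ (V₂ := ttraV2 M A hpM hA) (ttraRed1 M A hpM hA)
            ⟨b, ttru_le_inst M A hpM hA hat.c b.2⟩) c ∧
        GrdVal (ttrkSν₂ M p A hpM hA hat i)
          (ttalRedO₂ (V₁ := ttrV1 M A hpM hA) (ttraRed2 M A hpM hA)
            ⟨b, ttru_le_inst M A hpM hA hat.c b.2⟩) c :=
    fun i b => ttrkS_val M p A hpM hA hat i b
  exact mrjm_red2_of_atlas_mixed M A hpM hA hat r hr v₁ v₂ H₁ H₂ hv₂ hbe hfib₁ hfib₂ _ rfl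
    (ttrkSν₁ M p A hpM hA hat) (ttrkSν₂ M p A hpM hA hat) T₁ T₂
    (ttrkS_ν₁_injective M p A hpM hA hat hR₂) (ttrkS_ν₂_injective M p A hpM hA hat hR₁)
    (fun i => hT₁ _ (ttrng_node_zero₁ M A hpM hA (H₁.int_mem H₁.v_int) hv₁V2 hred₂ _ _
      (hglue₁ i)))
    (fun i => hT₂ _ (ttrng_node_zero₂ M A hpM hA hv₂O (H₂.int_mem H₂.v_int) hred₁ _ _
      (hglue₂ i)))
    lift₁ lift₂
    (ttrk_genus_le_S M p A hpM hA hat hR₁ hR₂ hR₁' hR₂' hT hT' hcusp)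
    (ttrng_hrν₁ M A hpM hA hat r hr H₁ hv₁V2 hred₂ _ _ hglue₁)
    (ttrng_hrν₂ M A hpM hA hat r hr H₂ hv₂O hred₁ _ _ hglue₂)
    hmix12 hmix21
    (fun i => ttruCenN M A hpM hA hat.c (ttrkSν₁ M p A hpM hA hat i))
    (ttru_hcenN_inst M A hpM hA hat.c _ _ hpair _ v₁ _ v₂ H₁.v_int hv₂
      (fun h => hred₂) (fun h => hred₁))
    (ttru_hN_inst M A hpM hA hat.c _ _ hpair)
    (ttrp_inst_val₁ M A hpM hA hat r hr v₁ _ v₂ H₁)
    (ttrp_inst_val₂ M A hpM hA hat r hr _ v₁ v₂ H₂ hdisj)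

/-- **LEAF (RED2) for an explicit atlas, on the canonical set of nodes, MIXED FACTS DISCHARGED**
(helper29 `ttal_mix12_f/c`, `ttal_mix21_f/c` through helper1 `ttrgl_hmix₁/₂_of_charts`) : the only new
input is `v₁ ∈ B(β τ)`. -/
theorem mrjm_red2_of_atlas_Sm (hat : GrdAtlas M A τ τ')
    (r : Place Qb (modularFunctionFieldBar M) →
      Place (ResidueField A) (modularFunctionFieldFullC (ResidueField A) M))
    (hr : GrdIsRed M A hat.c.mem hat.c'.mem r)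
    (v₁ v₂ : modularFunctionFieldBar (M * p))
    -- CHARTS
    (H₁ : TtrpChart M p A (heckeAlphaBar Qb M p) hat.c.mem (grdO (M * p) A) (ttrRed1 M A hA) v₁)
    (H₂ : TtrpChart M p A (heckeBetaBar Qb M p) hat.c.mem (ttrV2 M A hpM)
      (ttrRed2 M A hpM hA) v₂)
    (hv₂ : v₂ ∈ grdB (M * p) A (heckeAlphaBar Qb M p (grdQ M hat.c.mem)))
    (hbe : heckeBetaBar Qb M p (grdQ M hat.c.mem) ∈
      grdB (M * p) A (heckeAlphaBar Qb M p (grdQ M hat.c.mem)))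
    -- the two equations on the other component
    (hv₁V2 : v₁ ∈ ttrV2 M A hpM) (hred₂ : ttrRed2 M A hpM hA ⟨v₁, hv₁V2⟩ = 0)
    (hv₂O : v₂ ∈ grdO (M * p) A) (hred₁ : ttrRed1 M A hA ⟨v₂, hv₂O⟩ = 0)
    (hne₁ : ttrRed1 M A hA ⟨v₁, H₁.int_mem H₁.v_int⟩ ≠ 0)
    -- (B3)
    (hfib₁ : ∀ P : Place Qb (modularFunctionFieldBar (M * p)),
      TtrpGoodC M p A (heckeAlphaBar Qb M p (grdQ M hat.c.mem)) v₁ P →
      P.ramificationIndexAlong (heckeAlphaBar Qb M p) = 1 ∧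
      ∀ P' : Place Qb (modularFunctionFieldBar (M * p)),
        TtrpGoodC M p A (heckeAlphaBar Qb M p (grdQ M hat.c.mem)) v₁ P' →
        ttrpRes M p (heckeAlphaBar Qb M p) (gff_alpha_integral M p) P' =
          ttrpRes M p (heckeAlphaBar Qb M p) (gff_alpha_integral M p) P → P' = P)
    (hfib₂ : ∀ P : Place Qb (modularFunctionFieldBar (M * p)),
      TtrpGoodC M p A (heckeBetaBar Qb M p (grdQ M hat.c.mem)) v₂ P →
      P.ramificationIndexAlong (heckeBetaBar Qb M p) = 1 ∧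
      ∀ P' : Place Qb (modularFunctionFieldBar (M * p)),
        TtrpGoodC M p A (heckeBetaBar Qb M p (grdQ M hat.c.mem)) v₂ P' →
        ttrpRes M p (heckeBetaBar Qb M p) (gff_beta_integral M p) P' =
          ttrpRes M p (heckeBetaBar Qb M p) (gff_beta_integral M p) P → P' = P)
    -- EXCEPTIONAL SETS AND LIFTS
    (T₁ T₂ : Finset (Place (ResidueField A) ↥(modularFunctionFieldFullC (ResidueField A) M)))
    (hT₁ : ∀ Q : Place (ResidueField A) ↥(modularFunctionFieldFullC (ResidueField A) M),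
      GrdVal Q (ttrRed1 M A hA ⟨v₁, H₁.int_mem H₁.v_int⟩) 0 → Q ∈ T₁)
    (hT₂ : ∀ Q : Place (ResidueField A) ↥(modularFunctionFieldFullC (ResidueField A) M),
      GrdVal Q (ttrRed2 M A hpM hA ⟨v₂, H₂.int_mem H₂.v_int⟩) 0 → Q ∈ T₂)
    (lift₁ : ∀ Q : Place (ResidueField A) ↥(modularFunctionFieldFullC (ResidueField A) M),
      Q ∉ T₁ → ∃ P : Place Qb ↥(modularFunctionFieldBar (M * p)),
        ttrpCls M p A r (heckeAlphaBar Qb M p (grdQ M hat.c.mem)) v₁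
          (heckeBetaBar Qb M p (grdQ M hat.c.mem)) v₂ P = some (Sum.inl Q) ∧
        ∀ σ : ↥(ffI A), ffigRho (M * p) A σ • P = P)
    (lift₂ : ∀ Q : Place (ResidueField A) ↥(modularFunctionFieldFullC (ResidueField A) M),
      Q ∉ T₂ → ∃ P : Place Qb ↥(modularFunctionFieldBar (M * p)),
        ttrpCls M p A r (heckeAlphaBar Qb M p (grdQ M hat.c.mem)) v₁
          (heckeBetaBar Qb M p (grdQ M hat.c.mem)) v₂ P = some (Sum.inr Q) ∧
        ∀ σ : ↥(ffI A), ffigRho (M * p) A σ • P = P)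
    -- COUNT (helper5 CountS / CountT; helper17 ChartOnto)
    (hR₁ : ∀ y, y ∈ intRing (ResidueField A) (grdK M A hat.c.mem) ↔
      ∃ b, ttrkR₁ (ttrkT M p A hpM hA hat) b = y)
    (hR₂ : ∀ y, y ∈ intRing (ResidueField A) (grdK M A hat.c.mem) ↔
      ∃ b, ttrkR₂ (ttrkT M p A hpM hA hat) b = y)
    (hR₁' : ∀ y, y ∈ intRing (ResidueField A) (grdK M A hat.c'.mem) ↔
      ∃ b, ttrkR₁' (ttrkT M p A hpM hA hat) b = y)
    (hR₂' : ∀ y, y ∈ intRing (ResidueField A) (grdK M A hat.c'.mem) ↔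
      ∃ b, ttrkR₂' (ttrkT M p A hpM hA hat) b = y)
    (hT : ∀ 𝔫 : Ideal ↥(ttrkT M p A hpM hA hat).B, 𝔫.IsMaximal →
      RingHom.ker (ttrkR₁ (ttrkT M p A hpM hA hat)) ≤ 𝔫 →
      RingHom.ker (ttrkR₂ (ttrkT M p A hpM hA hat)) ≤ 𝔫 → ∀ x ∈ 𝔫, ∃ s, s ∉ 𝔫 ∧ ∃ y₁ y₂,
        ttrkR₁ (ttrkT M p A hpM hA hat) y₁ = 0 ∧ ttrkR₂ (ttrkT M p A hpM hA hat) y₂ = 0 ∧
          s * x = y₁ + y₂)
    (hT' : ∀ 𝔫 : Ideal ↥(ttrkT M p A hpM hA hat).B', 𝔫.IsMaximal →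
      RingHom.ker (ttrkR₁' (ttrkT M p A hpM hA hat)) ≤ 𝔫 →
      RingHom.ker (ttrkR₂' (ttrkT M p A hpM hA hat)) ≤ 𝔫 → ∀ x ∈ 𝔫, ∃ s, s ∉ 𝔫 ∧ ∃ y₁ y₂,
        ttrkR₁' (ttrkT M p A hpM hA hat) y₁ = 0 ∧ ttrkR₂' (ttrkT M p A hpM hA hat) y₂ = 0 ∧
          s * x = y₁ + y₂)
    (hcusp : ∀ 𝔫 : Ideal ↥(ttrkT M p A hpM hA hat).B', 𝔫.IsMaximal →
      RingHom.ker (ttrkR₁' (ttrkT M p A hpM hA hat)) ≤ 𝔫 →
      RingHom.ker (ttrkR₂' (ttrkT M p A hpM hA hat)) ≤ 𝔫 →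
      (⟨(ttrkT M p A hpM hA hat).u', (ttrkT M p A hpM hA hat).hu'⟩ :
        ↥(ttrkT M p A hpM hA hat).B') ∉ 𝔫)
    -- INTO: `v₁` lies in the `β`-chart ring (for `hmix21`)
    (hv₁β : v₁ ∈ grdB (M * p) A (heckeBetaBar Qb M p (grdQ M hat.c.mem))) :
    MrjmModel M A hpM hA :=
  mrjm_red2_of_atlas_S M A hpM hA hat r hr v₁ v₂ H₁ H₂ hv₂ hbe hv₁V2 hred₂ hv₂O hred₁ hne₁ hfib₁
    hfib₂ T₁ T₂ hT₁ hT₂ lift₁ lift₂ hR₁ hR₂ hR₁' hR₂' hT hT' hcusp
    (ttrgl_hmix₁_of_charts M A hpM hA hat _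
      (fun Q v _ h => ttal_mix12_f M A hpM hA hat.c v₂ hv₂ hred₁ _ Q v h)
      (fun Q v hQ h => ttal_mix12_c M A hpM hA hat hbe v₂ Q hQ v h))
    (ttrgl_hmix₂_of_charts M A hpM hA hat _
      (fun Q v _ h => ttal_mix21_f M A hpM hA hat.c v₁ hv₁β hred₂ _ Q v h)
      (fun Q v hQ h => ttal_mix21_c M A hpM hA hat hbe v₁ Q hQ v h))

/-- **LEAF (RED2) at `p ≥ 5`**, from the (COUNT) inputs at the `j`-atlas. -/
theorem mrjm_red2_j (h5 : 5 ≤ p) {τ' : LaurentSeries ℤ} (hτ' : jqModC ℤ * τ' = 1)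
    (hR₁ : ∀ y, y ∈ intRing (ResidueField A)
        (grdK M A (ttrli_atlas_j M A hpM hA h5 hτ').c.mem) ↔
      ∃ b, ttrkR₁ (ttrkT M p A hpM hA (ttrli_atlas_j M A hpM hA h5 hτ')) b = y)
    (hR₂ : ∀ y, y ∈ intRing (ResidueField A)
        (grdK M A (ttrli_atlas_j M A hpM hA h5 hτ').c.mem) ↔
      ∃ b, ttrkR₂ (ttrkT M p A hpM hA (ttrli_atlas_j M A hpM hA h5 hτ')) b = y)
    (hR₁' : ∀ y, y ∈ intRing (ResidueField A)
        (grdK M A (ttrli_atlas_j M A hpM hA h5 hτ').c'.mem) ↔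
      ∃ b, ttrkR₁' (ttrkT M p A hpM hA (ttrli_atlas_j M A hpM hA h5 hτ')) b = y)
    (hR₂' : ∀ y, y ∈ intRing (ResidueField A)
        (grdK M A (ttrli_atlas_j M A hpM hA h5 hτ').c'.mem) ↔
      ∃ b, ttrkR₂' (ttrkT M p A hpM hA (ttrli_atlas_j M A hpM hA h5 hτ')) b = y)
    (hT : ∀ 𝔫 : Ideal ↥(ttrkT M p A hpM hA (ttrli_atlas_j M A hpM hA h5 hτ')).B, 𝔫.IsMaximal →
      RingHom.ker (ttrkR₁ (ttrkT M p A hpM hA (ttrli_atlas_j M A hpM hA h5 hτ'))) ≤ 𝔫 →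
      RingHom.ker (ttrkR₂ (ttrkT M p A hpM hA (ttrli_atlas_j M A hpM hA h5 hτ'))) ≤ 𝔫 →
      ∀ x ∈ 𝔫, ∃ s, s ∉ 𝔫 ∧ ∃ y₁ y₂,
        ttrkR₁ (ttrkT M p A hpM hA (ttrli_atlas_j M A hpM hA h5 hτ')) y₁ = 0 ∧
        ttrkR₂ (ttrkT M p A hpM hA (ttrli_atlas_j M A hpM hA h5 hτ')) y₂ = 0 ∧
          s * x = y₁ + y₂)
    (hT' : ∀ 𝔫 : Ideal ↥(ttrkT M p A hpM hA (ttrli_atlas_j M A hpM hA h5 hτ')).B',
      𝔫.IsMaximal →
      RingHom.ker (ttrkR₁' (ttrkT M p A hpM hA (ttrli_atlas_j M A hpM hA h5 hτ'))) ≤ 𝔫 →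
      RingHom.ker (ttrkR₂' (ttrkT M p A hpM hA (ttrli_atlas_j M A hpM hA h5 hτ'))) ≤ 𝔫 →
      ∀ x ∈ 𝔫, ∃ s, s ∉ 𝔫 ∧ ∃ y₁ y₂,
        ttrkR₁' (ttrkT M p A hpM hA (ttrli_atlas_j M A hpM hA h5 hτ')) y₁ = 0 ∧
        ttrkR₂' (ttrkT M p A hpM hA (ttrli_atlas_j M A hpM hA h5 hτ')) y₂ = 0 ∧
          s * x = y₁ + y₂)
    (hcusp : ∀ 𝔫 : Ideal ↥(ttrkT M p A hpM hA (ttrli_atlas_j M A hpM hA h5 hτ')).B',
      𝔫.IsMaximal →
      RingHom.ker (ttrkR₁' (ttrkT M p A hpM hA (ttrli_atlas_j M A hpM hA h5 hτ'))) ≤ 𝔫 →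
      RingHom.ker (ttrkR₂' (ttrkT M p A hpM hA (ttrli_atlas_j M A hpM hA h5 hτ'))) ≤ 𝔫 →
      (⟨(ttrkT M p A hpM hA (ttrli_atlas_j M A hpM hA h5 hτ')).u',
        (ttrkT M p A hpM hA (ttrli_atlas_j M A hpM hA h5 hτ')).hu'⟩ :
        ↥(ttrkT M p A hpM hA (ttrli_atlas_j M A hpM hA h5 hτ')).B') ∉ 𝔫) :
    MrjmModel M A hpM hA := by
  obtain ⟨r, hr⟩ := grd_exists_isRed M A hpM hA (ttrli_atlas_j M A hpM hA h5 hτ')
  have hK₁ := ttrkr_kron_Y M A hpM hA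
  have hK₂ := ttrkr_kron_J M A hpM hA
  obtain ⟨lift₁, lift₂, -, -⟩ := ttrp_j_fields M A hpM hA h5 (ttrli_atlas_j M A hpM hA h5 hτ')
    r hr hK₁ hK₂ _ _ (Finset.Subset.refl _) (Finset.Subset.refl _)
  have e₂ : ttrJ M A (p := p) ^ p - ttrY M A (p := p) = -ttrU1 M A (p := p) := ttrp_j_v₂_eq M A
  have hv₂ : ttrJ M A (p := p) ^ p - ttrY M A (p := p) ∈
      grdB (M * p) A (heckeAlphaBar Qb M p (grdQ M (ttrli_atlas_j M A hpM hA h5 hτ').c.mem)) := by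
    rw [e₂]
    exact Subring.neg_mem _ (ttr_chart_U1_mem M A hpM hA)
  have hv₂O : ttrJ M A (p := p) ^ p - ttrY M A (p := p) ∈ grdO (M * p) A := by
    rw [e₂]
    exact Subring.neg_mem _ (ttrU1_mem M A)
  have hred₁ : ttrRed1 M A hA ⟨ttrJ M A (p := p) ^ p - ttrY M A (p := p), hv₂O⟩ = 0 := by
    have e : (⟨ttrJ M A (p := p) ^ p - ttrY M A (p := p), hv₂O⟩ : ↥(grdO (M * p) A)) =
        -⟨ttrU1 M A, ttrU1_mem M A⟩ := Subtype.ext e₂
    rw [e, map_neg, ttrRed1_U1, neg_zero]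
  have hne₁ : ttrRed1 M A hA ⟨ttrU2 M A (p := p), ttrU2_mem M A⟩ ≠ 0 := by
    rw [ttrRed1_U2]
    exact ttrH_ne_zero M A (Fact.out : p.Prime).one_lt
  refine mrjm_red2_of_atlas_Sm M A hpM hA (ttrli_atlas_j M A hpM hA h5 hτ') r hr
    (ttrU2 M A) (ttrJ M A ^ p - ttrY M A) (ttr_chart_j₁ M A hpM hA h5)
    (ttrp_j_chart₂ M A hpM hA h5) hv₂ (ttr_chart_Y_mem M A hpM hA)
    (ttrng_U2_mem₂ M A hpM) (ttrng_red₂_U2 M A hpM hA) hv₂O hred₁ hne₁
    (ttrli_hfib hpM hA _ (gff_alpha_integral M p) (gff_alpha_finite M p)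
      (ttrli_atlas_j M A hpM hA h5 hτ').c (grdQ M (grdi_mem_j M)) (grdr_isInt_self M A _)
      (ttrY M A) hK₁ (ttr_chart_Y_mem M A hpM hA) (ttrU2 M A) rfl)
    (ttrli_hfib hpM hA _ (gff_beta_integral M p) (gff_beta_finite M p)
      (ttrli_atlas_j M A hpM hA h5 hτ').c (grdQ M (grdi_mem_j M)) (grdr_isInt_self M A _)
      (ttrJ M A) hK₂ (ttrli_J_mem_beta M A hpM hA) (ttrJ M A ^ p - ttrY M A) rfl)
    _ _ (fun Q hQ => ?_) (fun Q hQ => ?_) lift₁ lift₂ hR₁ hR₂ hR₁' hR₂' hT hT' hcusp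
    (ttr_chart_U2_mem' M A hpM hA)
  · refine ttrp_zero_mem_T hpM hA (ttrli_atlas_j M A hpM hA h5 hτ') (ttrJk M A) _ Q ?_
    have h := hQ
    rw [ttrRed1_U2] at h
    exact h
  · refine ttrp_zero_mem_T hpM hA (ttrli_atlas_j M A hpM hA h5 hτ') (ttrJk M A) _ Q ?_
    have h := hQ
    have e : (⟨ttrJ M A (p := p) ^ p - ttrY M A (p := p),
        (ttrp_j_chart₂ M A hpM hA h5).int_mem (ttrp_j_chart₂ M A hpM hA h5).v_int⟩ :
          ↥(ttrV2 M A hpM)) =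
        ⟨-ttrU1 M A, Subring.neg_mem _ (ttrng_U1_mem₂ M A hpM)⟩ := Subtype.ext e₂
    rw [e, ttrng_red₂_negU1] at h
    exact h

include hpM hA in
/-- **LEAF (RED2) at `p ≥ 5`, HYPOTHESIS-FREE.** -/
theorem mrjm_red2_j_closed (h5 : 5 ≤ p) : MrjmModel M A hpM hA := by
  obtain ⟨τ', hτ'⟩ := grd_exists_jinv
  obtain ⟨hR₁, hR₂, hR₁', hR₂'⟩ :=
    ttrc_T_hR_j M p A hpM hA h5 (ttrli_atlas_j M A hpM hA h5 hτ')
  exact mrjm_red2_j M A hpM hA h5 hτ' hR₁ hR₂ hR₁' hR₂'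
    (ttrkJ_hT M p A hpM hA h5 (ttrli_atlas_j M A hpM hA h5 hτ'))
    (ttrkJ_hT' M p A hpM hA h5 (ttrli_atlas_j M A hpM hA h5 hτ'))
    (ttrkJ_hcusp M p A hpM hA (ttrli_atlas_j M A hpM hA h5 hτ'))

end Fermat.Agent.MR
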