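import Fermat.Agent.MR.J.Spec
import Fermat.Agent.MR.J.Model
import Fermat.Agent.MR.Sp.Inst
import Fermat.Agent.TT.Alpha.Final
import Fermat.Agent.TT.Geom.ConnAll
import Fermat.Agent.TT.ConnMain
import Fermat.Agent.FF.Top

/-!
# PROGRAM MR (S44), J-side: the three LANDED leaves `MrjNormSpec`, `MrjKerSpec`, `MrjGamSpec`
(prefix `mrjl`)

Owner: helper14 (taken over from helper16, R68(4)).  Namespace `Fermat.Agent.MR`.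

* `mrjl_norm : MrjNormSpec M 𝔸 hpM h𝔸` (no hypothesis) : landed `ttra_sc₁/₂`, `ttra_ker₁/₂`;
* `mrjl_ker (h5 : 5 ≤ p) : MrjKerSpec M 𝔸 hpM h𝔸` : helper1's `mrp_ker_inst` at `c₁ = 1`, `c₂ = c`;
* `mrjl_gam_stable` : `Γ₀` is `I`-stable (`ttal_kum_smul` + `ttal_one_smul` + `ttra_move₁/₂`);
* `mrjl_gam_noTriv (h5 : 5 ≤ p)` : (β) for `Γ₀` at the CONCRETE model `mrjm_red2_j_closed`
  (`ttg_connSpec` + `ttc_conn`);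
* `mrjl_gam (h5 : 5 ≤ p) : MrjGamSpec M 𝔸 hpM h𝔸`.
-/

set_option autoImplicit false
set_option linter.unusedSectionVars false
set_option linter.unusedVariables false
set_option linter.style.haveILetI false
set_option synthInstance.maxHeartbeats 400000

noncomputable section

namespace Fermat.Agent.MR

open Fermat.Agent.FF Fermat.Agent.TT Fermat.Agent.G ModularCurve AlgebraicCurve IsLocalRing

variable (M : ℕ) [NeZero M] {p : ℕ} [Fact p.Prime] [NeZero p]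
variable (𝔸 : ValuationSubring FfQb) (hpM : ¬ p ∣ M) (h𝔸 : 𝔸.LiesOverPrime p)

/-! ### (NORM) -/

/-- **(NORM)** : normalisations exist and the reduction of a unit is non-zero. -/
theorem mrjl_norm : MrjNormSpec M 𝔸 hpM h𝔸 := by
  have h₁ := ttra_h₁ M 𝔸 hpM h𝔸
  refine ⟨ttra_sc₁ M 𝔸 hpM h𝔸 h₁, ttra_sc₂ M 𝔸 hpM h𝔸 h₁, fun f hf hf0 h0 => ?_,
    fun f hf hf0 h0 => ?_⟩
  · exact mrp_isU_not_nonunits hf0 hf ((ttra_ker₁ M 𝔸 hpM h𝔸 h₁ ⟨f, hf.1⟩).1 h0)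
  · exact mrp_isU_not_nonunits hf0 hf ((ttra_ker₂ M 𝔸 hpM h𝔸 h₁ ⟨f, hf.1⟩).1 h0)

/-! ### (KER) -/

/-- **(KER)** : `ker sp ⊆ Γ₀` (helper1's `mrp_ker_inst`). -/
theorem mrjl_ker (h5 : 5 ≤ p) : MrjKerSpec M 𝔸 hpM h𝔸 := by
  intro D f₁ f₂ c h₁ h₂ hf₁ hc hf₂ hD e₁ e₂
  subst hf₂
  have k1 : algebraMap FfQb (modularFunctionFieldBar (M * p)) 1 * f₁ = f₁ := by
    rw [map_one, one_mul]
  have h₁' : TtalIsU (ttrV1 M 𝔸 hpM h𝔸)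
      (algebraMap FfQb (modularFunctionFieldBar (M * p)) 1 * f₁) := by
    rw [k1]; exact h₁
  refine mrp_ker_inst M 𝔸 hpM h5 h𝔸 D f₁ 1 c one_ne_zero hc h₁' h₂ hD ?_ e₂
  obtain ⟨a, h, e⟩ := e₁
  refine ⟨a, h, ?_⟩
  rw [← e]
  exact congrArg _ (Subtype.ext k1)

/-! ### (GAM) -/

/-- `Γ₀` is stable under the inertia group. -/
theorem mrjl_gam_stable (σ : FfGal) (hσ : σ ∈ ffI 𝔸) (x : JZero (M * p))
    (hx : x ∈ mrjGam M 𝔸 hpM h𝔸) : σ • x ∈ mrjGam M 𝔸 hpM h𝔸 := by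
  have h := ttal_kum_smul (K := FfQb) (n := p) (ffigRho (M * p) 𝔸 ⟨σ, hσ⟩)
    (fun f hf => ttal_one_smul (ffigRho (M * p) 𝔸 ⟨σ, hσ⟩)
      (fun y hy => ttra_move₁ M 𝔸 hpM h𝔸 ⟨σ, hσ⟩ y hy)
      (fun y hy => ttra_move₂ M 𝔸 hpM h𝔸 (ttra_hcomm M 𝔸 hpM) ⟨σ, hσ⟩ y hy) f hf) hx
  exact h

/-- `Γ₀ ⊆ J₀(M p)[p]` is finite. -/
theorem mrjl_gam_finite : Finite ↥(mrjGam M 𝔸 hpM h𝔸) := by
  haveI := fftp_finite (M * p) p 1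
  have hΓT : ∀ x ∈ mrjGam M 𝔸 hpM h𝔸,
      x ∈ Submodule.torsionBy ℤ (JZero (M * p)) ((p : ℤ) ^ 1) := by
    intro x hx
    rw [Submodule.mem_torsionBy_iff, pow_one]
    exact ttal_kum_torsion hx
  exact Finite.of_injective (fun γ : ↥(mrjGam M 𝔸 hpM h𝔸) =>
    (⟨γ.1, hΓT γ.1 γ.2⟩ : ↥(Submodule.torsionBy ℤ (JZero (M * p)) ((p : ℤ) ^ 1))))
    (fun a b hab => Subtype.ext (congrArg
      (fun z : ↥(Submodule.torsionBy ℤ (JZero (M * p)) ((p : ℤ) ^ 1)) => (z : JZero (M * p))) hab))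

/-- **(β)** for `Γ₀` : no non-zero `I`-trivial subquotient (landed program TT at the concrete
model). -/
theorem mrjl_gam_noTriv (h5 : 5 ≤ p) :
    TtNoTriv (fun (σ : ↥(ffI 𝔸)) (x : JZero (M * p)) => (σ : FfGal) • x)
      (mrjGam M 𝔸 hpM h𝔸) := by
  have hp : p.Prime := Fact.out
  have hp2 : p ≠ 2 := by omega
  obtain ⟨cls, S, hS, ν₁, ν₂, T₁, T₂, hMod⟩ := mrjm_red2_j_closed M 𝔸 hpM h𝔸 h5
  letI := hS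
  have RR := ffg_rr_bar (M * p)
  have hdeg : ∀ P : Place FfQb ↥(modularFunctionFieldBar (M * p)), P.deg = 1 :=
    fun v => (Fermat.Agent.S24.isSepGen_jBar (M * p)).deg_eq_one v
  obtain ⟨τ, τ', hat⟩ := ffcz_atlas M 𝔸 h𝔸 ⟨hpM, Or.inl h5⟩
  obtain ⟨-, RRk, -, hdegk, -⟩ := ffii_bundle M 𝔸 hpM h𝔸 hat
  have hρ : ∀ (σ : ↥(ffI 𝔸)) (a : FfQb),
      SemilinearAut.baseAut (ffigRho (M * p) 𝔸 σ) a = (σ : FfGal) a := fun σ a => rfl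
  have hΓ : mrjGam M 𝔸 hpM h𝔸 =
      ttalKum (K := FfQb) (ttalOne (ttrV1 M 𝔸 hpM h𝔸) (ttraV2 M 𝔸 hpM h𝔸)) (p ^ 1) := by
    rw [pow_one]; rfl
  haveI : Finite ↥(mrjGam M 𝔸 hpM h𝔸) := mrjl_gam_finite M 𝔸 hpM h𝔸
  have hstab : ∀ (σ : ↥(ffI 𝔸)) (γ : ↥(mrjGam M 𝔸 hpM h𝔸)),
      ffigRho (M * p) 𝔸 σ • (γ : JZero (M * p)) ∈ mrjGam M 𝔸 hpM h𝔸 :=
    fun σ γ => mrjl_gam_stable M 𝔸 hpM h𝔸 σ.1 σ.2 γ.1 γ.2
  set act : ↥(ffI 𝔸) → ↥(mrjGam M 𝔸 hpM h𝔸) → ↥(mrjGam M 𝔸 hpM h𝔸) :=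
    fun σ γ => ⟨ffigRho (M * p) 𝔸 σ • (γ : JZero (M * p)), hstab σ γ⟩ with hact
  have hout := ttg_connSpec p hp hp2 𝔸 h𝔸 _ _ _ _ _ _ RR hdeg RRk RRk hdegk hdegk
    (ttrV1 M 𝔸 hpM h𝔸) (ttraV2 M 𝔸 hpM h𝔸) (ttraRed1 M 𝔸 hpM h𝔸) (ttraRed2 M 𝔸 hpM h𝔸) _ hρ
    cls S ν₁ ν₂ T₁ T₂ hMod 1 (mrjGam M 𝔸 hpM h𝔸) hΓ inferInstance act (fun σ γ => rfl)
  have hNT := ttc_conn p hp hp2 𝔸 h𝔸 ↥(mrjGam M 𝔸 hpM h𝔸) act
    (fun m => ⟨1, by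
      apply Subtype.ext
      rw [pow_one, AddSubgroup.coe_nsmul, AddSubgroup.coe_zero, ← natCast_zsmul]
      exact ttal_kum_torsion m.2⟩)
    (fun σ m m' => Subtype.ext (by
      show ffigRho (M * p) 𝔸 σ • ((m : JZero (M * p)) + (m' : JZero (M * p))) = _
      rw [smul_add]; rfl))
    (fun σ τ m => Subtype.ext (by
      show ffigRho (M * p) 𝔸 (σ * τ) • (m : JZero (M * p)) = _
      rw [map_mul, mul_smul]))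
    (fun m => Subtype.ext (by
      show ffigRho (M * p) 𝔸 1 • (m : JZero (M * p)) = _
      rw [map_one, one_smul]))
    hout
  intro Y Z hZY hYΓ hYs hZs htriv y hy
  have key := hNT (Y.comap (mrjGam M 𝔸 hpM h𝔸).subtype) (Z.comap (mrjGam M 𝔸 hpM h𝔸).subtype)
    (AddSubgroup.comap_mono hZY) le_top
    (fun σ m hm => hYs σ m.1 hm) (fun σ m hm => hZs σ m.1 hm) (fun σ m hm => htriv σ m.1 hm)
  exact key (show (⟨y, hYΓ hy⟩ : ↥(mrjGam M 𝔸 hpM h𝔸)) ∈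
    Y.comap (mrjGam M 𝔸 hpM h𝔸).subtype from hy)

/-- **(GAM)** : the landed facts on `Γ₀`. -/
theorem mrjl_gam (h5 : 5 ≤ p) : MrjGamSpec M 𝔸 hpM h𝔸 :=
  ⟨fun σ hσ x hx => mrjl_gam_stable M 𝔸 hpM h𝔸 σ hσ x hx, mrjl_gam_noTriv M 𝔸 hpM h𝔸 h5⟩

/-- the three landed leaves of the J-side in one statement (`p ≥ 5`). -/
theorem mrjl_all (h5 : 5 ≤ p) :
    MrjKerSpec M 𝔸 hpM h𝔸 ∧ MrjGamSpec M 𝔸 hpM h𝔸 ∧ MrjNormSpec M 𝔸 hpM h𝔸 :=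
  ⟨mrjl_ker M 𝔸 hpM h𝔸 h5, mrjl_gam M 𝔸 hpM h𝔸 h5, mrjl_norm M 𝔸 hpM h𝔸⟩

end Fermat.Agent.MR
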