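import Fermat.Agent.MR.J.Spec
import Fermat.Agent.S24.PlaceOrd

/-!
# PROGRAM MR (S44), the J-SIDE: the assembly `MraJSpec` ⟸ the five Props of `MR/J/Spec.lean`

Owner: helper16.  `mrj_JSpec`.
-/

set_option autoImplicit false

noncomputable section

namespace Fermat.Agent.MR

open Fermat.Agent.FF Fermat.Agent.TT Fermat.Agent.S24 ModularCurve AlgebraicCurve

/-- a class `[D]` killed by `n` has a Kummer function. -/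
theorem mrj_exists_kummer {K F : Type*} [Field K] [Field F] [Algebra K F] (n : ℕ)
    (D : Divisor.degZero (K := K) (F := F)) (h : n • Pic0.mk D = 0) :
    ∃ f : F, f ≠ 0 ∧ ∀ P : Place K F, (n : ℤ) * (D : Divisor K F) P = P.ord f := by
  have h1 : Pic0.mk (n • D) = 0 := by
    rw [← h]
    exact QuotientAddGroup.mk_nsmul _ D n
  have h2 : (n • D) ∈ (Divisor.principal (K := K) (F := F)).addSubgroupOf
      (Divisor.degZero (K := K) (F := F)) :=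
    (QuotientAddGroup.eq_zero_iff _).mp h1
  rw [AddSubgroup.mem_addSubgroupOf] at h2
  obtain ⟨f, hf0, hf⟩ := h2
  refine ⟨f, hf0, fun P => ?_⟩
  rw [← hf P, AddSubgroup.coe_nsmul, Finsupp.smul_apply, nsmul_eq_mul]

/-- a subgroup of order `p` of a group of order `p ^ 2` is proper. -/
theorem mrj_exists_not_mem {X : Type*} [AddCommGroup X] {p : ℕ} (hp : 2 ≤ p)
    (V V' : AddSubgroup X) (hV : Nat.card ↥V = p ^ 2) (hV' : Nat.card ↥V' = p) :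
    ∃ x ∈ V, x ∉ V' := by
  by_contra hcon
  push_neg at hcon
  have hle : V ≤ V' := fun x hx => hcon x hx
  haveI : Finite ↥V' := Nat.finite_of_card_ne_zero (by rw [hV']; omega)
  have h1 : Nat.card ↥V ≤ Nat.card ↥V' :=
    Nat.card_le_card_of_injective (AddSubgroup.inclusion hle) (AddSubgroup.inclusion_injective hle)
  rw [hV, hV'] at h1
  nlinarith

/-- **the J-side from its five mid-level Props.** -/
theorem mrj_JSpec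
    (h1 : ∀ (M : ℕ) [NeZero M] (p : ℕ) [Fact p.Prime] [NeZero p] (𝔸 : ValuationSubring FfQb)
      (hpM : ¬ p ∣ M) (h𝔸 : 𝔸.LiesOverPrime p), MrjCompSpec₁ M 𝔸 hpM h𝔸)
    (h2 : ∀ (M : ℕ) [NeZero M] (p : ℕ) [Fact p.Prime] [NeZero p] (𝔸 : ValuationSubring FfQb)
      (hpM : ¬ p ∣ M) (h𝔸 : 𝔸.LiesOverPrime p), MrjCompSpec₂ M 𝔸 hpM h𝔸)
    (hK : ∀ (M : ℕ) [NeZero M] (p : ℕ) [Fact p.Prime] [NeZero p] (𝔸 : ValuationSubring FfQb)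
      (hpM : ¬ p ∣ M) (h𝔸 : 𝔸.LiesOverPrime p), 5 ≤ p → MrjKerSpec M 𝔸 hpM h𝔸)
    (hG : ∀ (M : ℕ) [NeZero M] (p : ℕ) [Fact p.Prime] [NeZero p] (𝔸 : ValuationSubring FfQb)
      (hpM : ¬ p ∣ M) (h𝔸 : 𝔸.LiesOverPrime p), 5 ≤ p → MrjGamSpec M 𝔸 hpM h𝔸)
    (hN : ∀ (M : ℕ) [NeZero M] (p : ℕ) [Fact p.Prime] [NeZero p] (𝔸 : ValuationSubring FfQb)
      (hpM : ¬ p ∣ M) (h𝔸 : 𝔸.LiesOverPrime p), MrjNormSpec M 𝔸 hpM h𝔸) :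
    MraJSpec := by
  intro P M _ _ W hpM hsq Vb 𝔸 h𝔸 hshape hp1 hne
  haveI : Fact P.p.Prime := ⟨P.pp⟩
  haveI : NeZero P.p := ⟨P.pp.ne_zero⟩
  have hp5 : 5 ≤ P.p := P.hp5
  -- the eigen-system
  set good : Nat.Primes → Prop := fun ℓ =>
    W.IsGoodPrimeFor ℓ ∧ ¬ (ℓ : ℕ) ∣ M * P.p ∧ (ℓ : ℕ) ≠ P.p with hgood
  set a : Nat.Primes → ℤ := fun ℓ => W.apOfModel ℓ with ha
  have hV : MrjV M 𝔸 good a Vb.V :=
    { tors := Vb.tors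
      stable := fun σ _ x hx => Vb.stable σ x hx
      eigen := fun ℓ hℓ x hx => Vb.eigen ℓ hℓ.1 hℓ.2.1 hℓ.2.2 x hx
      shape := hshape
      p1 := hp1 }
  have hgd : ∀ ℓ : Nat.Primes, good ℓ → ¬ (ℓ : ℕ) ∣ M * P.p := fun ℓ hℓ => hℓ.2.1
  have hne' : ∃ ℓ₀ : Nat.Primes, good ℓ₀ ∧ ¬ (P.p : ℤ) ∣ a ℓ₀ - ((ℓ₀ : ℕ) + 1 : ℤ) := by
    obtain ⟨ℓ, h1, h2, h3, h4⟩ := hne
    exact ⟨ℓ, ⟨h1, h2, h3⟩, h4⟩
  -- a point of `V̄` outside `V'`, hence outside `Γ₀`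
  obtain ⟨hcard, V', hV'le, hV'card, hV'1, -⟩ := hshape
  obtain ⟨x, hxV, hxV'⟩ := mrj_exists_not_mem (by omega : 2 ≤ P.p) Vb.V V' hcard hV'card
  obtain ⟨hGst, hGnt⟩ := hG M P.p 𝔸 hpM h𝔸 hp5
  have hxG : x ∉ mrjGam M 𝔸 hpM h𝔸 := by
    intro hxG
    have hV'st : ∀ σ ∈ ffI 𝔸, ∀ z ∈ V', σ • z ∈ V' := by
      intro σ hσ z hz
      have h := hV'1 σ hσ z (hV'le hz)
      have e : σ • z = (σ • z - z) + z := by abel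
      rw [e]
      exact V'.add_mem h hz
    have key := hGnt (Vb.V ⊓ mrjGam M 𝔸 hpM h𝔸) (V' ⊓ mrjGam M 𝔸 hpM h𝔸)
      (inf_le_inf_right _ hV'le) inf_le_right
      (fun σ y hy => ⟨Vb.stable _ y hy.1, hGst _ σ.2 y hy.2⟩)
      (fun σ z hz => ⟨hV'st _ σ.2 z hz.1, hGst _ σ.2 z hz.2⟩)
      (fun σ y hy => ⟨hV'1 _ σ.2 y hy.1,
        (mrjGam M 𝔸 hpM h𝔸).sub_mem (hGst _ σ.2 y hy.2) hy.2⟩)
    exact hxV' (key ⟨hxV, hxG⟩).1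
  -- a Kummer function of `x`
  obtain ⟨D, rfl⟩ := Pic0.mk_surjective x
  obtain ⟨f, hf0, hf⟩ := mrj_exists_kummer P.p D (Vb.tors _ hxV)
  obtain ⟨hn1, hn2, hr1, hr2⟩ := hN M P.p 𝔸 hpM h𝔸
  obtain ⟨c₁, hc₁, hu₁⟩ := hn1 f hf0
  obtain ⟨c₂, hc₂, hu₂⟩ := hn2 f hf0
  have hc₁F : algebraMap FfQb (modularFunctionFieldBar (M * P.p)) c₁ ≠ 0 := by
    simpa using hc₁
  have hc₂F : algebraMap FfQb (modularFunctionFieldBar (M * P.p)) c₂ ≠ 0 := by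
    simpa using hc₂
  have hf₁0 : algebraMap FfQb (modularFunctionFieldBar (M * P.p)) c₁ * f ≠ 0 :=
    mul_ne_zero hc₁F hf0
  have hf₂0 : algebraMap FfQb (modularFunctionFieldBar (M * P.p)) c₂ * f ≠ 0 :=
    mul_ne_zero hc₂F hf0
  have hd₁ : ∀ Q : Place FfQb ↥(modularFunctionFieldBar (M * P.p)),
      (P.p : ℤ) * (D : Divisor FfQb ↥(modularFunctionFieldBar (M * P.p))) Q =
        Q.ord (algebraMap FfQb (modularFunctionFieldBar (M * P.p)) c₁ * f) := by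
    intro Q
    rw [Place.ord_mul Q hc₁F hf0, PlaceOrd.ord_algebraMap, zero_add, hf Q]
  have hd₂ : ∀ Q : Place FfQb ↥(modularFunctionFieldBar (M * P.p)),
      (P.p : ℤ) * (D : Divisor FfQb ↥(modularFunctionFieldBar (M * P.p))) Q =
        Q.ord (algebraMap FfQb (modularFunctionFieldBar (M * P.p)) c₂ * f) := by
    intro Q
    rw [Place.ord_mul Q hc₂F hf0, PlaceOrd.ord_algebraMap, zero_add, hf Q]
  have e₁ := h1 M P.p 𝔸 hpM h𝔸 hp5 hsq good a Vb.V hgd hV hne' D _ hu₁ hf₁0 hxV hd₁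
  have e₂ := h2 M P.p 𝔸 hpM h𝔸 hp5 hsq good a Vb.V hgd hV hne' D _ hu₂ hf₂0 hxV hd₂
  -- one of the two reductions is not a constant times a `p`-th power
  have hnot : ¬ ((∃ (a : MraK 𝔸) (h : modularFunctionFieldFullC (MraK 𝔸) M),
        ttraRed1 M 𝔸 hpM h𝔸 ⟨_, hu₁.1⟩ = algebraMap (MraK 𝔸) _ a * h ^ P.p) ∧
      (∃ (a : MraK 𝔸) (h : modularFunctionFieldFullC (MraK 𝔸) M),
        ttraRed2 M 𝔸 hpM h𝔸 ⟨_, hu₂.1⟩ = algebraMap (MraK 𝔸) _ a * h ^ P.p)) := by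
    rintro ⟨t₁, t₂⟩
    refine hxG (hK M P.p 𝔸 hpM h𝔸 hp5 D _ _ (c₂ / c₁) hu₁ hu₂ hf₁0 (div_ne_zero hc₂ hc₁) ?_ hd₁ t₁ t₂)
    rw [← mul_assoc, ← map_mul, div_mul_cancel₀ c₂ hc₁]
  have fin : ∀ ψ : modularFunctionFieldFullC (MraK 𝔸) M, ψ ≠ 0 →
      MrjEigen (p := P.p) M 𝔸 good a ψ →
      (¬ ∃ (c : MraK 𝔸) (h : modularFunctionFieldFullC (MraK 𝔸) M),
        ψ = algebraMap (MraK 𝔸) _ c * h ^ P.p) → MraEigenFun P M W 𝔸 :=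
    fun ψ h0 he hn => ⟨ψ, h0, he.1, hn, fun ℓ g1 g2 g3 => he.2 ℓ ⟨g1, g2, g3⟩⟩
  by_cases t₁ : ∃ (a : MraK 𝔸) (h : modularFunctionFieldFullC (MraK 𝔸) M),
      ttraRed1 M 𝔸 hpM h𝔸 ⟨_, hu₁.1⟩ = algebraMap (MraK 𝔸) _ a * h ^ P.p
  · have t₂ : ¬ ∃ (a : MraK 𝔸) (h : modularFunctionFieldFullC (MraK 𝔸) M),
        ttraRed2 M 𝔸 hpM h𝔸 ⟨_, hu₂.1⟩ = algebraMap (MraK 𝔸) _ a * h ^ P.p :=
      fun t₂ => hnot ⟨t₁, t₂⟩
    exact fin _ (hr2 _ hu₂ hf₂0) e₂ t₂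
  · exact fin _ (hr1 _ hu₁ hf₁0) e₁ t₁

end Fermat.Agent.MR
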